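/-
P-SS2 row 896 (SS2-A5 EISDVR, helper10, second seat): Eisenstein-type extensions of a DVR.

* `eis_core` : `D` a DVR with uniformiser `x`, `z` integral over `D` in a field `L ⊇ D` with
  `z ^ n = x * w`, `w ≡ unit of D` modulo `z` in `D[z]`  ⟹  `D[z]` is local with maximal ideal
  `(z)`, it is a DVR and `z` is irreducible.
* `eis_of_polynomial` : the same for a root `z` of an Eisenstein polynomial
  (`P` monic, lower coefficients in `(x)`, constant coefficient `x * unit`).
* `eis_dvr_maximal` : a DVR is a maximal proper subring of its fraction field.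
-/
import Mathlib

set_option autoImplicit false
set_option linter.style.haveILetI false

noncomputable section

open Polynomial

namespace Fermat.Agent.H10.SS2

section Core

variable {D : Type*} [CommRing D] [IsDomain D] [IsDiscreteValuationRing D]
variable {L : Type*} [Field L] [Algebra D L]

omit [IsDomain D] [IsDiscreteValuationRing D] in
/-- Every element of `D[z]` is `d + z * g`. -/
theorem eis_decomp (z : L) (r : L) (hr : r ∈ Algebra.adjoin D ({z} : Set L)) :
    ∃ d : D, ∃ g ∈ Algebra.adjoin D ({z} : Set L), r = algebraMap D L d + z * g := by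
  induction hr using Algebra.adjoin_induction with
  | mem y hy =>
    rw [Set.mem_singleton_iff] at hy
    subst hy
    exact ⟨0, 1, Subalgebra.one_mem _, by simp⟩
  | algebraMap d => exact ⟨d, 0, Subalgebra.zero_mem _, by simp⟩
  | add a b _ _ ha hb =>
    obtain ⟨d₁, g₁, hg₁, rfl⟩ := ha
    obtain ⟨d₂, g₂, hg₂, rfl⟩ := hb
    exact ⟨d₁ + d₂, g₁ + g₂, Subalgebra.add_mem _ hg₁ hg₂, by rw [map_add]; ring⟩
  | mul a b _ _ ha hb =>
    obtain ⟨d₁, g₁, hg₁, rfl⟩ := ha
    obtain ⟨d₂, g₂, hg₂, rfl⟩ := hb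
    refine ⟨d₁ * d₂, algebraMap D L d₁ * g₂ + algebraMap D L d₂ * g₁ + z * (g₁ * g₂), ?_, ?_⟩
    · refine Subalgebra.add_mem _ (Subalgebra.add_mem _ ?_ ?_) ?_
      · exact Subalgebra.mul_mem _ (Subalgebra.algebraMap_mem _ _) hg₂
      · exact Subalgebra.mul_mem _ (Subalgebra.algebraMap_mem _ _) hg₁
      · exact Subalgebra.mul_mem _ (Algebra.subset_adjoin (Set.mem_singleton z))
          (Subalgebra.mul_mem _ hg₁ hg₂)
    · rw [map_mul]; ring

/-- The conclusion of the Eisenstein statements. -/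
def EisConclusion (D : Type*) [CommRing D] {L : Type*} [Field L] [Algebra D L] (z : L) : Prop :=
  ∃ (_ : IsLocalRing ↥(Algebra.adjoin D ({z} : Set L)))
    (hz : z ∈ Algebra.adjoin D ({z} : Set L)),
    IsDiscreteValuationRing ↥(Algebra.adjoin D ({z} : Set L)) ∧
    IsLocalRing.maximalIdeal ↥(Algebra.adjoin D ({z} : Set L)) =
      Ideal.span {(⟨z, hz⟩ : ↥(Algebra.adjoin D ({z} : Set L)))} ∧
    Irreducible (⟨z, hz⟩ : ↥(Algebra.adjoin D ({z} : Set L)))

/-- **Eisenstein extension, relation form.** -/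
theorem eis_core (x : D) (hx : Irreducible x) (hinj : Function.Injective (algebraMap D L))
    (z : L) (hz : IsIntegral D z) (n : ℕ) (u : D) (hu : IsUnit u) (s : L)
    (hs : s ∈ Algebra.adjoin D ({z} : Set L))
    (hrel : z ^ n = algebraMap D L x * (algebraMap D L u + z * s)) :
    EisConclusion D z := by
  classical
  set R := Algebra.adjoin D ({z} : Set L) with hR
  have hzR : z ∈ R := Algebra.subset_adjoin (Set.mem_singleton z)
  set zR : ↥R := ⟨z, hzR⟩ with hzRdef
  set sR : ↥R := ⟨s, hs⟩ with hsRdef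
  haveI hint : Algebra.IsIntegral D ↥R :=
    Algebra.IsIntegral.adjoin (fun y hy => by
      rw [Set.mem_singleton_iff] at hy
      rw [hy]
      exact hz)
  have hrelR : zR ^ n = algebraMap D ↥R x * (algebraMap D ↥R u + zR * sR) := by
    apply Subtype.ext
    exact hrel
  -- `z` lies in every maximal ideal
  have hxmem : ∀ m : Ideal ↥R, m.IsMaximal → algebraMap D ↥R x ∈ m := by
    intro m hm
    haveI := hm
    have h1 : (Ideal.comap (algebraMap D ↥R) m).IsMaximal :=
      Ideal.isMaximal_comap_of_isIntegral_of_isMaximal m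
    have h2 := IsLocalRing.eq_maximalIdeal h1
    have h3 : x ∈ IsLocalRing.maximalIdeal D := by
      rw [IsLocalRing.mem_maximalIdeal]
      exact hx.not_isUnit
    rw [← h2] at h3
    exact h3
  have hn0 : n ≠ 0 := by
    rintro rfl
    obtain ⟨m, hm⟩ := Ideal.exists_maximal ↥R
    have h1 := hxmem m hm
    have h2 : (1 : ↥R) ∈ m := by
      have : (zR ^ 0 : ↥R) ∈ m := by
        rw [hrelR]
        exact Ideal.mul_mem_right _ _ h1
      simpa using this
    exact hm.ne_top ((Ideal.eq_top_iff_one m).mpr h2)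
  have hzmem : ∀ m : Ideal ↥R, m.IsMaximal → zR ∈ m := by
    intro m hm
    have h1 : zR ^ n ∈ m := by
      rw [hrelR]
      exact Ideal.mul_mem_right _ _ (hxmem m hm)
    exact hm.isPrime.mem_of_pow_mem n h1
  have hjac : zR ∈ (⊥ : Ideal ↥R).jacobson := by
    rw [Ideal.jacobson, Ideal.mem_sInf]
    rintro m ⟨-, hm⟩
    exact hzmem m hm
  have hunit1 : ∀ y : ↥R, IsUnit (zR * y + 1) := Ideal.mem_jacobson_bot.mp hjac
  -- units of the form `d + z g`
  have hunit2 : ∀ (d : D) (g : ↥R), IsUnit d → IsUnit (algebraMap D ↥R d + zR * g) := by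
    intro d g hd
    obtain ⟨d', rfl⟩ := hd
    have h1 : algebraMap D ↥R (d' : D) + zR * g =
        algebraMap D ↥R (d' : D) * (zR * (algebraMap D ↥R ((d'⁻¹ : Dˣ) : D) * g) + 1) := by
      have h2 : algebraMap D ↥R (d' : D) * algebraMap D ↥R ((d'⁻¹ : Dˣ) : D) = 1 := by
        rw [← map_mul, Units.mul_inv, map_one]
      calc algebraMap D ↥R (d' : D) + zR * g
          = algebraMap D ↥R (d' : D) +
            (algebraMap D ↥R (d' : D) * algebraMap D ↥R ((d'⁻¹ : Dˣ) : D)) * (zR * g) := by
            rw [h2, one_mul]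
        _ = _ := by ring
    rw [h1]
    exact ((d'.isUnit).map (algebraMap D ↥R)).mul (hunit1 _)
  have hw : IsUnit (algebraMap D ↥R u + zR * sR) := hunit2 u sR hu
  -- `x ∈ (z)`
  have hxz : algebraMap D ↥R x ∈ Ideal.span {zR} := by
    obtain ⟨w, hw'⟩ := hw
    have h1 : algebraMap D ↥R x = zR ^ n * ((w⁻¹ : (↥R)ˣ) : ↥R) := by
      rw [hrelR, ← hw', mul_assoc, Units.mul_inv, mul_one]
    rw [h1, Ideal.mem_span_singleton']
    refine ⟨zR ^ (n - 1) * ((w⁻¹ : (↥R)ˣ) : ↥R), ?_⟩
    have : zR ^ n = zR ^ (n - 1) * zR := by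
      rw [← pow_succ, Nat.sub_add_cancel (Nat.pos_of_ne_zero hn0)]
    rw [this]
    ring
  -- nonunits are the multiples of `z`
  have hnonunit : ∀ r : ↥R, r ∈ nonunits ↥R ↔ r ∈ Ideal.span {zR} := by
    intro r
    constructor
    · intro hr
      obtain ⟨d, g, hg, hrd⟩ := eis_decomp z (r : L) r.2
      have hrR : r = algebraMap D ↥R d + zR * ⟨g, hg⟩ := Subtype.ext hrd
      by_cases hd : IsUnit d
      · exact absurd (hrR ▸ hunit2 d ⟨g, hg⟩ hd) hr
      · have hdm : d ∈ IsLocalRing.maximalIdeal D := (IsLocalRing.mem_maximalIdeal d).mpr hd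
        rw [(IsDiscreteValuationRing.irreducible_iff_uniformizer x).mp hx,
          Ideal.mem_span_singleton'] at hdm
        obtain ⟨d', rfl⟩ := hdm
        rw [hrR, map_mul]
        exact Ideal.add_mem _ (Ideal.mul_mem_left _ _ hxz)
          (Ideal.mul_mem_right _ _ (Ideal.mem_span_singleton_self zR))
    · intro hr
      obtain ⟨m, hm⟩ := Ideal.exists_maximal ↥R
      have h1 : r ∈ m := (Ideal.span_singleton_le_iff_mem m |>.mpr (hzmem m hm)) hr
      intro hru
      exact hm.ne_top (Ideal.eq_top_of_isUnit_mem m h1 hru)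
  haveI hloc : IsLocalRing ↥R := IsLocalRing.of_nonunits_add (fun a b ha hb => by
    rw [hnonunit] at ha hb ⊢
    exact Ideal.add_mem _ ha hb)
  have hmax : IsLocalRing.maximalIdeal ↥R = Ideal.span {zR} := by
    ext r
    rw [IsLocalRing.mem_maximalIdeal, ← hnonunit]
  -- `z ≠ 0`
  have hx0 : algebraMap D L x ≠ 0 := by
    rw [Ne, map_eq_zero_iff _ hinj]
    exact hx.ne_zero
  have hz0 : zR ≠ 0 := by
    intro h0
    have h1 : (zR ^ n : ↥R) = 0 := by rw [h0, zero_pow hn0]
    rw [hrelR] at h1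
    rcases mul_eq_zero.mp h1 with h2 | h2
    · apply hx0
      have := congrArg Subtype.val h2
      simpa using this
    · exact hw.ne_zero h2
  have hnf : ¬ IsField ↥R := by
    rw [IsLocalRing.isField_iff_maximalIdeal_eq, hmax]
    intro h0
    exact hz0 (Ideal.span_singleton_eq_bot.mp h0)
  haveI : IsNoetherianRing ↥R := by
    have : R.FG := by
      have := Subalgebra.fg_adjoin_finset (R := D) ({z} : Finset L)
      rwa [Finset.coe_singleton] at this
    exact isNoetherianRing_of_fg this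
  have hprin : Submodule.IsPrincipal (IsLocalRing.maximalIdeal ↥R) := by
    rw [hmax]
    exact ⟨⟨zR, rfl⟩⟩
  have hdvr : IsDiscreteValuationRing ↥R := ((IsDiscreteValuationRing.TFAE ↥R hnf).out 0 4).mpr hprin
  refine ⟨hloc, hzR, hdvr, hmax, ?_⟩
  haveI := hdvr
  exact (IsDiscreteValuationRing.irreducible_iff_uniformizer zR).mpr hmax

/-- In the situation of `eis_core`: `x` is a unit times `z ^ n` in `D[z]`. -/
theorem eis_core_rel (x : D) (hx : Irreducible x) (hinj : Function.Injective (algebraMap D L))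
    (z : L) (hz : IsIntegral D z) (n : ℕ) (u : D) (hu : IsUnit u) (s : L)
    (hs : s ∈ Algebra.adjoin D ({z} : Set L))
    (hrel : z ^ n = algebraMap D L x * (algebraMap D L u + z * s)) :
    ∃ (hzR : z ∈ Algebra.adjoin D ({z} : Set L)) (w : (↥(Algebra.adjoin D ({z} : Set L)))ˣ),
      algebraMap D ↥(Algebra.adjoin D ({z} : Set L)) x =
        (w : ↥(Algebra.adjoin D ({z} : Set L))) *
          (⟨z, hzR⟩ : ↥(Algebra.adjoin D ({z} : Set L))) ^ n := by
  classical
  obtain ⟨hloc, hzR, -, hmax, -⟩ := eis_core x hx hinj z hz n u hu s hs hrel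
  haveI := hloc
  set R := Algebra.adjoin D ({z} : Set L) with hR
  set zR : ↥R := ⟨z, hzR⟩ with hzRdef
  set sR : ↥R := ⟨s, hs⟩ with hsRdef
  have hrelR : zR ^ n = algebraMap D ↥R x * (algebraMap D ↥R u + zR * sR) := by
    apply Subtype.ext
    exact hrel
  have hW : IsUnit (algebraMap D ↥R u + zR * sR) := by
    by_contra hcon
    have h1 : algebraMap D ↥R u + zR * sR ∈ IsLocalRing.maximalIdeal ↥R :=
      (IsLocalRing.mem_maximalIdeal _).mpr hcon
    have h2 : zR * sR ∈ IsLocalRing.maximalIdeal ↥R := by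
      rw [hmax]
      exact Ideal.mul_mem_right _ _ (Ideal.mem_span_singleton_self zR)
    have h3 : algebraMap D ↥R u ∈ IsLocalRing.maximalIdeal ↥R := by
      have := Ideal.sub_mem _ h1 h2
      simpa using this
    exact (IsLocalRing.mem_maximalIdeal _).mp h3 (hu.map (algebraMap D ↥R))
  obtain ⟨w, hw⟩ := hW
  refine ⟨hzR, w⁻¹, ?_⟩
  rw [hrelR, ← hw]
  rw [mul_comm (algebraMap D ↥R x), ← mul_assoc, Units.inv_mul, one_mul]

/-- **Eisenstein extension, polynomial form.** -/
theorem eis_of_polynomial (x : D) (hx : Irreducible x)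
    (hinj : Function.Injective (algebraMap D L)) (P : D[X]) (hP : P.Monic)
    (hdeg : 0 < P.natDegree)
    (hlow : ∀ i, i < P.natDegree → P.coeff i ∈ Ideal.span {x})
    (h0 : ∃ u : D, IsUnit u ∧ P.coeff 0 = x * u)
    (z : L) (hz : aeval z P = 0) : EisConclusion D z := by
  classical
  obtain ⟨u, hu, hu0⟩ := h0
  have hb : ∀ i, ∃ b : D, i < P.natDegree → P.coeff i = x * b := by
    intro i
    by_cases hi : i < P.natDegree
    · obtain ⟨b, hb⟩ := Ideal.mem_span_singleton'.mp (hlow i hi)
      exact ⟨b, fun _ => by rw [← hb, mul_comm]⟩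
    · exact ⟨0, fun h => absurd h hi⟩
  choose b hb using hb
  have hzint : IsIntegral D z := ⟨P, hP, by rwa [← aeval_def]⟩
  have hzR : z ∈ Algebra.adjoin D ({z} : Set L) := Algebra.subset_adjoin (Set.mem_singleton z)
  -- the relation
  have hsum : aeval z P = z ^ P.natDegree +
      ∑ i ∈ Finset.range P.natDegree, algebraMap D L (P.coeff i) * z ^ i := by
    conv_lhs => rw [hP.as_sum]
    simp only [map_add, map_pow, aeval_X, map_sum, map_mul, aeval_C]
  rw [hsum] at hz
  obtain ⟨k, hk⟩ : ∃ k, P.natDegree = k + 1 := ⟨P.natDegree - 1, (Nat.sub_add_cancel hdeg).symm⟩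
  have hterm : ∀ i ∈ Finset.range k, algebraMap D L (P.coeff (i + 1)) * z ^ (i + 1) =
      algebraMap D L x * (z * (algebraMap D L (b (i + 1)) * z ^ i)) := by
    intro i hi
    rw [hb (i + 1) (by rw [hk]; exact Nat.succ_lt_succ (Finset.mem_range.mp hi)), map_mul,
      pow_succ]
    ring
  have hsplit : ∑ i ∈ Finset.range P.natDegree, algebraMap D L (P.coeff i) * z ^ i =
      algebraMap D L x * (algebraMap D L u +
        z * ∑ i ∈ Finset.range k, algebraMap D L (b (i + 1)) * z ^ i) := by
    rw [hk, Finset.sum_range_succ', pow_zero, mul_one, hu0, map_mul,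
      Finset.sum_congr rfl hterm, ← Finset.mul_sum, ← Finset.mul_sum]
    ring
  rw [hsplit] at hz
  have hrel : z ^ P.natDegree = algebraMap D L x * (algebraMap D L (-u) +
      z * (-∑ i ∈ Finset.range k, algebraMap D L (b (i + 1)) * z ^ i)) := by
    rw [map_neg]
    linear_combination hz
  refine eis_core x hx hinj z hzint P.natDegree (-u) hu.neg _ ?_ hrel
  refine Subalgebra.neg_mem _ (Subalgebra.sum_mem _ fun i _ => ?_)
  exact Subalgebra.mul_mem _ (Subalgebra.algebraMap_mem _ _) (Subalgebra.pow_mem _ hzR i)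

/-- **Degree of an Eisenstein extension**: the Eisenstein polynomial is irreducible over the
fraction field, it is the minimal polynomial of its root, and `[K(z) : K] = deg P`. -/
theorem eis_finrank (K : Type*) [Field K] [Algebra D K] [IsFractionRing D K] [Algebra K L]
    [IsScalarTower D K L] (x : D) (hx : Irreducible x) (P : D[X]) (hP : P.Monic)
    (hdeg : 0 < P.natDegree)
    (hlow : ∀ i, i < P.natDegree → P.coeff i ∈ Ideal.span {x})
    (h0 : ∃ u : D, IsUnit u ∧ P.coeff 0 = x * u)
    (z : L) (hz : aeval z P = 0) :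
    Irreducible (P.map (algebraMap D K)) ∧ minpoly K z = P.map (algebraMap D K) ∧
      Module.finrank K (IntermediateField.adjoin K ({z} : Set L)) = P.natDegree := by
  classical
  obtain ⟨u, hu, hu0⟩ := h0
  have hmax : IsLocalRing.maximalIdeal D = Ideal.span {x} :=
    (IsDiscreteValuationRing.irreducible_iff_uniformizer x).mp hx
  have hprime : (Ideal.span {x} : Ideal D).IsPrime := by
    rw [← hmax]
    exact (IsLocalRing.maximalIdeal.isMaximal D).isPrime
  have hE : P.IsEisensteinAt (Ideal.span {x}) := by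
    refine ⟨?_, fun {i} hi => hlow i hi, ?_⟩
    · rw [hP.leadingCoeff]
      intro h1
      exact hprime.ne_top ((Ideal.eq_top_iff_one _).mpr h1)
    · rw [hu0, Ideal.span_singleton_pow, Ideal.mem_span_singleton]
      rintro ⟨c, hc⟩
      have h1 : x * u = x * (x * c) := by rw [hc]; ring
      have h2 : u = x * c := mul_left_cancel₀ hx.ne_zero h1
      exact hx.not_isUnit (isUnit_of_mul_isUnit_left (h2 ▸ hu))
  have hirr : Irreducible P := hE.irreducible hprime hP.isPrimitive hdeg
  have hirrK : Irreducible (P.map (algebraMap D K)) :=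
    (hP.irreducible_iff_irreducible_map_fraction_map (K := K)).mp hirr
  have hzK : aeval z (P.map (algebraMap D K)) = 0 := by
    rw [aeval_map_algebraMap]
    exact hz
  have hmin : minpoly K z = P.map (algebraMap D K) :=
    (minpoly.eq_of_irreducible_of_monic hirrK hzK (hP.map _)).symm
  refine ⟨hirrK, hmin, ?_⟩
  have hint : IsIntegral K z := ⟨P.map (algebraMap D K), hP.map _, by rwa [← aeval_def]⟩
  rw [IntermediateField.adjoin.finrank hint, hmin, hP.natDegree_map]

end Core

section Maximal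

variable {R : Type*} [CommRing R] [IsDomain R] [IsDiscreteValuationRing R]
variable {K : Type*} [Field K] [Algebra R K] [IsFractionRing R K]

/-- **A DVR is a maximal proper subring of its fraction field.** -/
theorem eis_dvr_maximal (S : Subalgebra R K) : S = ⊥ ∨ S = ⊤ := by
  classical
  by_cases hS : S = ⊥
  · exact Or.inl hS
  right
  obtain ⟨ϖ, hϖ⟩ := IsDiscreteValuationRing.exists_irreducible R
  have hϖ0 : algebraMap R K ϖ ≠ 0 := by
    rw [Ne, map_eq_zero_iff _ (IsFractionRing.injective R K)]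
    exact hϖ.ne_zero
  -- an element of `S` outside `R`
  obtain ⟨s, hsS, hsR⟩ : ∃ s ∈ S, s ∉ (⊥ : Subalgebra R K) := by
    by_contra hcon
    push Not at hcon
    exact hS (le_antisymm (fun s hs => hcon s hs) bot_le)
  -- `ϖ⁻¹ ∈ S`
  have hinv : (algebraMap R K ϖ)⁻¹ ∈ S := by
    obtain ⟨a, b, hb, hab⟩ := IsFractionRing.div_surjective (A := R) s
    have hb0 : b ≠ 0 := nonZeroDivisors.ne_zero hb
    have ha0 : a ≠ 0 := by
      rintro rfl
      apply hsR
      rw [← hab, map_zero, zero_div]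
      exact Subalgebra.zero_mem _
    obtain ⟨i, ua, hua⟩ := IsDiscreteValuationRing.eq_unit_mul_pow_irreducible ha0 hϖ
    obtain ⟨j, ub, hub⟩ := IsDiscreteValuationRing.eq_unit_mul_pow_irreducible hb0 hϖ
    have hub0 : algebraMap R K (ub : R) ≠ 0 := by
      rw [Ne, map_eq_zero_iff _ (IsFractionRing.injective R K)]
      exact ub.ne_zero
    have hua0 : algebraMap R K (ua : R) ≠ 0 := by
      rw [Ne, map_eq_zero_iff _ (IsFractionRing.injective R K)]
      exact ua.ne_zero
    have hij : i < j := by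
      by_contra hcon
      push Not at hcon
      apply hsR
      rw [Algebra.mem_bot]
      refine ⟨ua * ((ub⁻¹ : Rˣ) : R) * ϖ ^ (i - j), ?_⟩
      rw [← hab, hua, hub]
      have hpow : ϖ ^ i = ϖ ^ (i - j) * ϖ ^ j := by
        rw [← pow_add, Nat.sub_add_cancel hcon]
      rw [hpow]
      simp only [map_mul, map_pow]
      have h1 : algebraMap R K ((ub⁻¹ : Rˣ) : R) * algebraMap R K (ub : R) = 1 := by
        rw [← map_mul, Units.inv_mul, map_one]
      have hpj : (algebraMap R K ϖ) ^ j ≠ 0 := pow_ne_zero _ hϖ0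
      rw [eq_div_iff (mul_ne_zero hub0 hpj)]
      linear_combination (algebraMap R K (ua : R)) * (algebraMap R K ϖ) ^ (i - j) *
        (algebraMap R K ϖ) ^ j * h1
    -- `s * (ub / ua) * ϖ^(j - i - 1) = ϖ⁻¹`
    have h2 : (algebraMap R K ϖ)⁻¹ =
        s * algebraMap R K ((ub : R) * ((ua⁻¹ : Rˣ) : R) * ϖ ^ (j - i - 1)) := by
      symm
      apply eq_inv_of_mul_eq_one_left
      rw [← hab, hua, hub]
      have hpow : ϖ ^ j = ϖ ^ i * ϖ ^ (j - i - 1) * ϖ := by
        rw [← pow_add, ← pow_succ]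
        congr 1
        omega
      rw [hpow]
      simp only [map_mul, map_pow]
      have h1 : algebraMap R K ((ua⁻¹ : Rˣ) : R) * algebraMap R K (ua : R) = 1 := by
        rw [← map_mul, Units.inv_mul, map_one]
      have hp1 : (algebraMap R K ϖ) ^ i ≠ 0 := pow_ne_zero _ hϖ0
      have hp2 : (algebraMap R K ϖ) ^ (j - i - 1) ≠ 0 := pow_ne_zero _ hϖ0
      rw [div_mul_eq_mul_div, div_mul_eq_mul_div,
        div_eq_one_iff_eq (mul_ne_zero hub0 (mul_ne_zero (mul_ne_zero hp1 hp2) hϖ0))]
      linear_combination (algebraMap R K (ub : R) * (algebraMap R K ϖ) ^ i *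
        (algebraMap R K ϖ) ^ (j - i - 1) * algebraMap R K ϖ) * h1
    rw [h2]
    exact Subalgebra.mul_mem _ hsS (Subalgebra.algebraMap_mem _ _)
  -- everything is in `S`
  rw [eq_top_iff]
  intro y _
  obtain ⟨a, b, hb, hab⟩ := IsFractionRing.div_surjective (A := R) y
  have hb0 : b ≠ 0 := nonZeroDivisors.ne_zero hb
  obtain ⟨j, ub, hub⟩ := IsDiscreteValuationRing.eq_unit_mul_pow_irreducible hb0 hϖ
  have h3 : y = algebraMap R K (a * ((ub⁻¹ : Rˣ) : R)) * ((algebraMap R K ϖ)⁻¹) ^ j := by
    rw [← hab, hub]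
    simp only [map_mul, map_pow]
    have h1 : algebraMap R K ((ub⁻¹ : Rˣ) : R) * algebraMap R K (ub : R) = 1 := by
      rw [← map_mul, Units.inv_mul, map_one]
    have hub0 : algebraMap R K (ub : R) ≠ 0 := by
      rw [Ne, map_eq_zero_iff _ (IsFractionRing.injective R K)]
      exact ub.ne_zero
    have hp1 : (algebraMap R K ϖ) ^ j ≠ 0 := pow_ne_zero _ hϖ0
    rw [inv_pow, ← div_eq_mul_inv, div_eq_div_iff (mul_ne_zero hub0 hp1) hp1]
    linear_combination (-(algebraMap R K a * (algebraMap R K ϖ) ^ j)) * h1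
  rw [h3]
  exact Subalgebra.mul_mem _ (Subalgebra.algebraMap_mem _ _) (Subalgebra.pow_mem _ hinv j)

end Maximal

end Fermat.Agent.H10.SS2
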